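import Mathlib.RingTheory.AdicCompletion.Basic

set_option autoImplicit false

namespace Fermat.Agent.H56

/-- In an adically complete ring, a sequence with `f (m+1) - f m ∈ I ^ m` has a limit. -/
lemma exists_adic_limit {S : Type} [CommRing S] (I : Ideal S) [IsAdicComplete I S]
    (f : ℕ → S) (hf : ∀ m, f (m + 1) - f m ∈ I ^ m) : ∃ L : S, ∀ n, L - f n ∈ I ^ n := by
  have hmono : ∀ m k, f (m + k) - f m ∈ I ^ m := by
    intro m k
    induction k with
    | zero => simp
    | succ k ih =>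
      have h1 : f (m + (k + 1)) - f (m + k) ∈ I ^ m :=
        Ideal.pow_le_pow_right (Nat.le_add_right m k) (hf (m + k))
      have : f (m + (k + 1)) - f m = (f (m + (k + 1)) - f (m + k)) + (f (m + k) - f m) := by ring
      rw [this]
      exact Ideal.add_mem _ h1 ih
  have hc : ∀ {m n}, m ≤ n → f m ≡ f n [SMOD (I ^ m • ⊤ : Submodule S S)] := by
    intro m n hmn
    obtain ⟨k, rfl⟩ := Nat.exists_eq_add_of_le hmn
    rw [SModEq.sub_mem, smul_eq_mul, Ideal.mul_top, ← Ideal.neg_mem_iff, neg_sub]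
    exact hmono m k
  obtain ⟨L, hL⟩ := IsPrecomplete.prec (IsAdicComplete.toIsPrecomplete (I := I) (M := S)) hc
  refine ⟨L, fun n => ?_⟩
  have := hL n
  rw [SModEq.sub_mem, smul_eq_mul, Ideal.mul_top] at this
  rw [← Ideal.neg_mem_iff, neg_sub]
  exact this

theorem exists_limit_of_tower {S : Type} [CommRing S] (I : Ideal S) [IsAdicComplete I S]
    (K : ℕ → Ideal S) (hK : Antitone K) (hIK : ∀ n, I ^ n ≤ K n)
    (hKK : ∀ n, K n ≤ K (n + 1) ⊔ I ^ n) (s : ℕ → S) (hs : ∀ n, s (n + 1) - s n ∈ K n) :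
    ∃ t : S, ∀ n, t - s n ∈ K n := by
  have _ := hK
  -- one correction step
  have step : ∀ m (t : {t : S // t - s m ∈ K m}),
      ∃ t' : {t : S // t - s (m + 1) ∈ K (m + 1)}, t'.1 - t.1 ∈ I ^ m := by
    rintro m ⟨t, ht⟩
    have h1 : s (m + 1) - t ∈ K m := by
      have : s (m + 1) - t = (s (m + 1) - s m) - (t - s m) := by ring
      rw [this]
      exact Ideal.sub_mem _ (hs m) ht
    obtain ⟨κ, hκ, i, hi, hsum⟩ := Submodule.mem_sup.mp (hKK m h1)
    refine ⟨⟨t + i, ?_⟩, ?_⟩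
    · have : t + i - s (m + 1) = -κ := by
        have : i = s (m + 1) - t - κ := by rw [← hsum]; ring
        rw [this]; ring
      rw [this]
      exact (K (m + 1)).neg_mem hκ
    · simpa using hi
  choose f hf using step
  let T : (m : ℕ) → {t : S // t - s m ∈ K m} :=
    fun m => Nat.rec (motive := fun m => {t : S // t - s m ∈ K m}) ⟨s 0, by simp⟩
      (fun m t => f m t) m
  have hT : ∀ m, (T (m + 1)).1 - (T m).1 ∈ I ^ m := fun m => hf m (T m)
  obtain ⟨L, hL⟩ := exists_adic_limit I (fun m => (T m).1) hT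
  refine ⟨L, fun n => ?_⟩
  have : L - s n = (L - (T n).1) + ((T n).1 - s n) := by ring
  rw [this]
  exact Ideal.add_mem _ (hIK n (hL n)) (T n).2

theorem mem_iInf_sup_pow_of_tower {S : Type} [CommRing S] (I : Ideal S) [IsAdicComplete I S]
    (K : ℕ → Ideal S) (hK : Antitone K) (hIK : ∀ n, I ^ n ≤ K n)
    (hKK : ∀ n, K n ≤ K (n + 1) ⊔ I ^ n) (n : ℕ) : K n ≤ (⨅ m, K m) ⊔ I ^ n := by
  intro x hx
  -- one step: from `K (n + j)` to `K (n + j + 1)` modulo `I ^ (n + j)`
  have step : ∀ j (t : {t : S // t ∈ K (n + j)}),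
      ∃ t' : {t : S // t ∈ K (n + (j + 1))}, t'.1 - t.1 ∈ I ^ (n + j) := by
    rintro j ⟨t, ht⟩
    obtain ⟨κ, hκ, i, hi, hsum⟩ := Submodule.mem_sup.mp (hKK (n + j) ht)
    refine ⟨⟨κ, hκ⟩, ?_⟩
    have : κ - t = -i := by rw [← hsum]; ring
    rw [this]
    exact (I ^ (n + j)).neg_mem hi
  choose f hf using step
  let T : (j : ℕ) → {t : S // t ∈ K (n + j)} :=
    fun j => Nat.rec (motive := fun j => {t : S // t ∈ K (n + j)}) ⟨x, by simpa using hx⟩
      (fun j t => f j t) j
  have hT : ∀ j, (T (j + 1)).1 - (T j).1 ∈ I ^ (n + j) := fun j => hf j (T j)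
  have hT0 : (T 0).1 = x := rfl
  -- all `T j` are congruent to `x` modulo `I ^ n`
  have hTn : ∀ j, (T j).1 - x ∈ I ^ n := by
    intro j
    induction j with
    | zero => simp [hT0]
    | succ j ih =>
      have : (T (j + 1)).1 - x = ((T (j + 1)).1 - (T j).1) + ((T j).1 - x) := by ring
      rw [this]
      exact Ideal.add_mem _ (Ideal.pow_le_pow_right (Nat.le_add_right n j) (hT j)) ih
  obtain ⟨L, hL⟩ := exists_adic_limit I (fun j => (T j).1)
    (fun j => Ideal.pow_le_pow_right (Nat.le_add_left j n) (hT j))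
  have hLK : L ∈ ⨅ m, K m := by
    rw [Submodule.mem_iInf]
    intro m
    have h1 : L - (T m).1 ∈ K m := hIK m (hL m)
    have h2 : (T m).1 ∈ K m := hK (Nat.le_add_left m n) (T m).2
    have : L = (L - (T m).1) + (T m).1 := by ring
    rw [this]
    exact Ideal.add_mem _ h1 h2
  have hxL : x - L ∈ I ^ n := by
    have : x - L = -((L - (T n).1) + ((T n).1 - x)) := by ring
    rw [this]
    exact (I ^ n).neg_mem (Ideal.add_mem _ (hL n) (hTn n))
  have : x = L + (x - L) := by ring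
  rw [this]
  exact Submodule.add_mem_sup hLK hxL

end Fermat.Agent.H56
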