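import Mathlib.RingTheory.Depth.Rees
import Mathlib.RingTheory.Regular.Free
import Mathlib.RingTheory.LocalRing.Quotient
import Mathlib.RingTheory.Ideal.Quotient.Noetherian

set_option autoImplicit false

namespace Fermat.Agent.H56

open IsLocalRing RingTheory.Sequence CategoryTheory Abelian Pointwise

universe u

/-- Exchange lemma: if `y ∈ m \ m²` and `m` is generated by the finite set `s`, then one of the
generators can be replaced by `y`. -/
lemma exists_erase_span_eq {A : Type u} [CommRing A] [IsLocalRing A] [DecidableEq A]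
    (s : Finset A) (hs : maximalIdeal A = Ideal.span (s : Set A))
    {y : A} (hy : y ∈ maximalIdeal A) (hy2 : y ∉ (maximalIdeal A) ^ 2) :
    ∃ x ∈ s, maximalIdeal A = Ideal.span (insert y ((s.erase x : Finset A) : Set A)) := by
  have hy' : y ∈ Ideal.span (s : Set A) := hs ▸ hy
  obtain ⟨f, -, hf⟩ := Submodule.mem_span_finset.mp hy'
  have hex : ∃ x ∈ s, f x ∉ maximalIdeal A := by
    by_contra hcon
    push Not at hcon
    apply hy2
    rw [← hf, pow_two]
    refine Ideal.sum_mem _ fun x hx => ?_
    rw [smul_eq_mul]
    exact Ideal.mul_mem_mul (hcon x hx) (hs ▸ Ideal.subset_span hx)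
  obtain ⟨x, hx, hfx⟩ := hex
  refine ⟨x, hx, ?_⟩
  have hu : IsUnit (f x) := by
    by_contra h
    exact hfx ((IsLocalRing.mem_maximalIdeal _).mpr h)
  apply le_antisymm
  · rw [hs, Ideal.span_le]
    intro z hz
    by_cases hzx : z = x
    · subst hzx
      -- f z * z = y - ∑ over erase
      have hsum : f z * z = y - ∑ i ∈ s.erase z, f i • i := by
        rw [← hf, ← Finset.add_sum_erase s (fun i => f i • i) hx]
        simp [smul_eq_mul]
      have hmem : f z * z ∈ Ideal.span (insert y ((s.erase z : Finset A) : Set A)) := by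
        rw [hsum]
        refine Ideal.sub_mem _ (Ideal.subset_span (Set.mem_insert _ _)) ?_
        refine Ideal.sum_mem _ fun i hi => ?_
        rw [smul_eq_mul]
        exact Ideal.mul_mem_left _ _ (Ideal.subset_span (Set.mem_insert_of_mem _ hi))
      obtain ⟨u, hu'⟩ := hu
      have : z = (↑u⁻¹ : A) * (f z * z) := by
        rw [← hu', ← mul_assoc, Units.inv_mul, one_mul]
      have h2 : (↑u⁻¹ : A) * (f z * z) ∈ Ideal.span (insert y ((s.erase z : Finset A) : Set A)) :=
        Ideal.mul_mem_left _ _ hmem
      rw [← this] at h2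
      exact h2
    · exact Ideal.subset_span (Set.mem_insert_of_mem _ (Finset.mem_erase.mpr ⟨hzx, hz⟩))
  · rw [Ideal.span_le]
    intro z hz
    rcases hz with rfl | hz
    · exact hy
    · rw [SetLike.mem_coe, hs]
      exact Ideal.subset_span (Finset.mem_of_mem_erase hz)

/-- Existence of a regular element in `m \ m²` (prime avoidance). -/
lemma exists_regular_not_mem_sq {A : Type u} [CommRing A] [IsLocalRing A] [IsNoetherianRing A]
    {N : Type u} [AddCommGroup N] [Module A N] [Module.Finite A N] [Nontrivial N]
    {y₁ : A} (hy₁ : y₁ ∈ maximalIdeal A) (hreg : IsSMulRegular N y₁) :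
    ∃ y ∈ maximalIdeal A, y ∉ (maximalIdeal A) ^ 2 ∧ IsSMulRegular N y := by
  -- `m ≠ m²`
  have hne : ¬ (maximalIdeal A ≤ (maximalIdeal A) ^ 2) := by
    intro hle
    have hbot : maximalIdeal A = ⊥ := by
      apply Submodule.eq_bot_of_le_smul_of_le_jacobson_bot (maximalIdeal A) (maximalIdeal A)
        (IsNoetherian.noetherian _)
      · rw [smul_eq_mul, ← pow_two]; exact hle
      · exact IsLocalRing.maximalIdeal_le_jacobson _
    have h0 : y₁ = 0 := by simpa [hbot] using hy₁
    subst h0
    exact not_subsingleton N (IsSMulRegular.zero_iff_subsingleton.mp hreg)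
  -- `m ⊄ P` for associated primes
  have hass : ∀ P ∈ associatedPrimes A N, ¬ (maximalIdeal A ≤ P) := by
    intro P hP hle
    have : y₁ ∈ ⋃ p ∈ associatedPrimes A N, (p : Set A) :=
      Set.mem_biUnion hP (hle hy₁)
    rw [biUnion_associatedPrimes_eq_compl_regular A N] at this
    exact this hreg
  have hfin : (insert ((maximalIdeal A) ^ 2) (associatedPrimes A N)).Finite :=
    (associatedPrimes.finite A N).insert _
  have key := (Ideal.subset_union_prime_finite hfin (f := id) ((maximalIdeal A) ^ 2)
    ((maximalIdeal A) ^ 2) (I := maximalIdeal A) (by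
      intro i hi h1 _
      rcases hi with rfl | hi
      · exact absurd rfl h1
      · exact IsAssociatedPrime.isPrime hi)).not.mpr (by
      rintro ⟨i, hi, hle⟩
      rcases hi with rfl | hi
      · exact hne hle
      · exact hass i hi hle)
  rw [Set.not_subset] at key
  obtain ⟨y, hym, hy⟩ := key
  refine ⟨y, hym, ?_, ?_⟩
  · intro h2
    exact hy (Set.mem_biUnion (Set.mem_insert _ _) h2)
  · by_contra hnr
    have : y ∈ ⋃ p ∈ associatedPrimes A N, (p : Set A) := by
      rw [biUnion_associatedPrimes_eq_compl_regular A N]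
      exact hnr
    obtain ⟨P, hP, hyP⟩ := Set.mem_iUnion₂.mp this
    exact hy (Set.mem_biUnion (Set.mem_insert_of_mem _ hP) hyP)

/-- Depth drops by exactly one modulo a regular element: if `N` has a regular sequence of length
`n + 1` in `m` and `y ∈ m` is `N`-regular, then `N/yN` has a regular sequence of length `n`
in `m`. -/
lemma exists_isRegular_quotSMulTop {A : Type u} [CommRing A] [IsLocalRing A] [IsNoetherianRing A]
    {N : Type u} [AddCommGroup N] [Module A N] [Module.Finite A N]
    {n : ℕ} (rs : List A) (hlen : rs.length = n + 1) (hmem : ∀ r ∈ rs, r ∈ maximalIdeal A)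
    (hreg : IsRegular N rs) {y : A} (hy : y ∈ maximalIdeal A) (hyreg : IsSMulRegular N y) :
    ∃ rs' : List A, rs'.length = n ∧ (∀ r ∈ rs', r ∈ maximalIdeal A) ∧
      IsRegular (QuotSMulTop y N) rs' := by
  have : Nontrivial N := hreg.nontrivial
  have : Nontrivial (QuotSMulTop y N) := nontrivial_quotSMulTop_of_mem_maximalIdeal N hy
  let k : ModuleCat.{u} A := ModuleCat.of A (A ⧸ maximalIdeal A)
  have hsupp : Module.support A k = PrimeSpectrum.zeroLocus (maximalIdeal A : Set A) := by
    rw [Module.support_eq_zeroLocus, Ideal.annihilator_quotient]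
  have smul_lt : (maximalIdeal A) • (⊤ : Submodule A N) < ⊤ :=
    lt_top_iff_ne_top.mpr (Submodule.top_ne_ideal_smul_of_le_jacobson_annihilator
      (IsLocalRing.maximalIdeal_le_jacobson _)).symm
  have smul_lt' : (maximalIdeal A) • (⊤ : Submodule A (QuotSMulTop y N)) < ⊤ :=
    lt_top_iff_ne_top.mpr (Submodule.top_ne_ideal_smul_of_le_jacobson_annihilator
      (IsLocalRing.maximalIdeal_le_jacobson _)).symm
  have h_ext : ∀ i < n + 1, Subsingleton (Ext k (ModuleCat.of A N) i) := by
    intro i hi
    exact ModuleCat.subsingleton_ext_of_exists_isRegular (maximalIdeal A) k hsupp.subset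
      (ModuleCat.of A N) smul_lt rs hmem hreg i (hlen ▸ hi)
  have h_ext' : ∀ i < n, Subsingleton (Ext k (ModuleCat.of A (QuotSMulTop y N)) i) := by
    intro i hi
    have zero1 := AddCommGrpCat.isZero_of_iff_subsingleton.mpr (h_ext i (by omega))
    have zero2 := AddCommGrpCat.isZero_of_iff_subsingleton.mpr (h_ext (i + 1) (by omega))
    exact AddCommGrpCat.subsingleton_of_isZero <| ShortComplex.Exact.isZero_of_both_zeros
      ((Ext.covariant_sequence_exact₃' k
        (IsSMulRegular.smulShortComplex_shortExact (M := ModuleCat.of A N) hyreg)) i (i + 1) rfl)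
      (zero1.eq_zero_of_src _) (zero2.eq_zero_of_tgt _)
  exact ModuleCat.exists_isRegular_of_exists_subsingleton_ext (maximalIdeal A) n
    (ModuleCat.of A (QuotSMulTop y N)) smul_lt' k hsupp h_ext'

/-- A finitely generated module over a Noetherian local ring whose maximal ideal is generated by
at most `n` elements, admitting a regular sequence of length `n` in the maximal ideal, is free.
(A special case of the Auslander--Buchsbaum formula.) -/
theorem free_of_isRegular_of_span_eq : ∀ (n : ℕ) (A : Type u) [CommRing A] [IsLocalRing A]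
    [IsNoetherianRing A] (N : Type u) [AddCommGroup N] [Module A N] [Module.Finite A N]
    (s : Finset A) (_ : s.card ≤ n) (_ : maximalIdeal A = Ideal.span (s : Set A))
    (rs : List A) (_ : rs.length = n) (_ : ∀ r ∈ rs, r ∈ maximalIdeal A)
    (_ : IsRegular N rs), Module.Free A N := by
  classical
  intro n
  induction n with
  | zero =>
    intro A _ _ _ N _ _ _ s hs hm rs _ _ _
    have hs0 : s = ∅ := Finset.card_eq_zero.mp (Nat.le_zero.mp hs)
    have hbot : maximalIdeal A = ⊥ := by
      rw [hm, hs0]; simp
    have hfield : IsField A := IsLocalRing.isField_iff_maximalIdeal_eq.mpr hbot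
    let := hfield.toField
    exact Module.Free.of_divisionRing A N
  | succ n ih =>
    intro A _ _ _ N _ _ _ s hs hm rs hlen hmem hreg
    have hN : Nontrivial N := hreg.nontrivial
    -- the first element of `rs` is a regular element in `m`
    obtain ⟨y₁, rs₁, rfl⟩ : ∃ y₁ rs₁, rs = y₁ :: rs₁ := by
      cases rs with
      | nil => simp at hlen
      | cons a l => exact ⟨a, l, rfl⟩
    have hy₁reg : IsSMulRegular N y₁ := ((isRegular_cons_iff N y₁ rs₁).mp hreg).1
    have hy₁m : y₁ ∈ maximalIdeal A := hmem y₁ (List.mem_cons_self)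
    -- choose a regular element in `m \ m²`
    obtain ⟨y, hym, hy2, hyreg⟩ := exists_regular_not_mem_sq hy₁m hy₁reg
    -- exchange generators
    obtain ⟨x, hxs, hm'⟩ := exists_erase_span_eq s hm hym hy2
    -- regular sequence on the quotient
    obtain ⟨rs', hlen', hmem', hreg'⟩ :=
      exists_isRegular_quotSMulTop (y₁ :: rs₁) hlen hmem hreg hym hyreg
    have hreg'' : IsRegular (QuotSMulTop y N)
        (rs'.map (Ideal.Quotient.mk (Ideal.span {y}))) :=
      ((isRegular_cons_iff' N y rs').mp ((isRegular_cons_iff N y rs').mpr ⟨hyreg, hreg'⟩)).2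
    -- the quotient ring
    have hne : Ideal.span {y} ≠ (⊤ : Ideal A) := by
      intro h
      rw [Ideal.span_singleton_eq_top] at h
      exact (IsLocalRing.mem_maximalIdeal _).mp hym h
    have : Nontrivial (A ⧸ Ideal.span {y}) := Ideal.Quotient.nontrivial_iff.mpr hne
    have : IsLocalRing (A ⧸ Ideal.span {y}) :=
      IsLocalRing.of_surjective' (Ideal.Quotient.mk (Ideal.span {y}))
        Ideal.Quotient.mk_surjective
    have : Module.Finite (A ⧸ Ideal.span {y}) (QuotSMulTop y N) :=
      Module.Finite.of_restrictScalars_finite A (A ⧸ Ideal.span {y}) (QuotSMulTop y N)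
    have hmq : maximalIdeal (A ⧸ Ideal.span {y}) =
        Ideal.span (((s.erase x).image (Ideal.Quotient.mk (Ideal.span {y})) : Finset _) :
          Set (A ⧸ Ideal.span {y})) := by
      rw [← IsLocalRing.map_maximalIdeal_of_surjective (Ideal.Quotient.mk (Ideal.span {y}))
        Ideal.Quotient.mk_surjective, hm', Ideal.map_span, Set.image_insert_eq,
        Finset.coe_image]
      have h0 : (Ideal.Quotient.mk (Ideal.span {y})) y = 0 :=
        Ideal.Quotient.eq_zero_iff_mem.mpr (Ideal.subset_span (Set.mem_singleton y))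
      rw [h0]
      apply le_antisymm
      · rw [Ideal.span_le]
        intro z hz
        rcases hz with rfl | hz
        · exact Ideal.zero_mem _
        · exact Ideal.subset_span hz
      · exact Ideal.span_mono (Set.subset_insert _ _)
    have hcard : ((s.erase x).image (Ideal.Quotient.mk (Ideal.span {y}))).card ≤ n := by
      refine le_trans Finset.card_image_le ?_
      rw [Finset.card_erase_of_mem hxs]
      omega
    have hmemq : ∀ r ∈ rs'.map (Ideal.Quotient.mk (Ideal.span {y})),
        r ∈ maximalIdeal (A ⧸ Ideal.span {y}) := by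
      intro r hr
      obtain ⟨a, ha, rfl⟩ := List.mem_map.mp hr
      rw [← IsLocalRing.map_maximalIdeal_of_surjective (Ideal.Quotient.mk (Ideal.span {y}))
        Ideal.Quotient.mk_surjective]
      exact Ideal.mem_map_of_mem _ (hmem' a ha)
    have hfree : Module.Free (A ⧸ Ideal.span {y}) (QuotSMulTop y N) :=
      ih (A ⧸ Ideal.span {y}) (QuotSMulTop y N) _ hcard hmq _ (by simpa using hlen') hmemq hreg''
    have : Module.FinitePresentation A N := Module.finitePresentation_of_finite A N
    have hjac : y ∈ (⊥ : Ideal A).jacobson := by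
      rw [IsLocalRing.jacobson_eq_maximalIdeal ⊥ bot_ne_top]
      exact hym
    exact (Module.free_quotSMulTop_iff_free A N hjac hyreg).mp hfree

end Fermat.Agent.H56
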