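import Mathlib.RingTheory.MvPowerSeries.Equiv
import Mathlib.RingTheory.MvPowerSeries.Inverse
import Mathlib.RingTheory.MvPowerSeries.NoZeroDivisors
import Mathlib.RingTheory.PowerSeries.Ideal
import Mathlib.RingTheory.PowerSeries.Inverse
import Mathlib.RingTheory.Regular.RegularSequence
import Mathlib.RingTheory.DiscreteValuationRing.Basic
import Mathlib.RingTheory.LocalRing.RingHom.Basic

set_option autoImplicit false

namespace Fermat.Agent.H56

open RingTheory.Sequence IsLocalRing Pointwise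

/-- Transport of weakly regular sequences along a ring isomorphism. -/
lemma isWeaklyRegular_map_ringEquiv {S S' : Type*} [CommRing S] [CommRing S'] (e : S ≃+* S')
    (l : List S) : IsWeaklyRegular S l ↔ IsWeaklyRegular S' (l.map e) :=
  AddEquiv.isWeaklyRegular_congr (e := e.toAddEquiv) <| List.forall₂_map_right_iff.mpr <|
    List.forall₂_same.mpr fun r _ x => by simp

/-- The additive isomorphism `R⟦X⟧ / X R⟦X⟧ ≃ R` given by the constant coefficient. -/
noncomputable def quotXEquiv (R : Type*) [CommRing R] :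
    QuotSMulTop (PowerSeries.X : PowerSeries R) (PowerSeries R) ≃+ R :=
  AddEquiv.ofBijective
    ((Submodule.liftQ ((PowerSeries.X : PowerSeries R) • (⊤ : Submodule (PowerSeries R) (PowerSeries R)))
      (PowerSeries.constantCoeff (R := R)).toSemilinearMap (by
        intro f hf
        obtain ⟨g, -, rfl⟩ := (Submodule.mem_smul_pointwise_iff_exists _ _ _).mp hf
        simp)).toAddMonoidHom)
    (by
      constructor
      · rw [injective_iff_map_eq_zero]
        intro q hq
        induction q using Submodule.Quotient.induction_on with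
        | _ f =>
          have hf : PowerSeries.constantCoeff f = 0 := hq
          obtain ⟨g, rfl⟩ := PowerSeries.X_dvd_iff.mpr hf
          rw [Submodule.Quotient.mk_eq_zero]
          exact (Submodule.mem_smul_pointwise_iff_exists _ _ _).mpr ⟨g, trivial, rfl⟩
      · intro a
        exact ⟨Submodule.Quotient.mk (PowerSeries.C a), by
          show PowerSeries.constantCoeff (PowerSeries.C a) = a
          simp⟩)

lemma quotXEquiv_mk {R : Type*} [CommRing R] (f : PowerSeries R) :
    quotXEquiv R (Submodule.Quotient.mk f) = PowerSeries.constantCoeff f := rfl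

/-- If `l` is weakly regular on `R` then `X :: l.map C` is weakly regular on `R⟦X⟧`. -/
lemma isWeaklyRegular_powerSeries {R : Type*} [CommRing R] (l : List R)
    (h : IsWeaklyRegular R l) :
    IsWeaklyRegular (PowerSeries R) (PowerSeries.X :: l.map PowerSeries.C) := by
  rw [isWeaklyRegular_cons_iff]
  refine ⟨fun a b hab => PowerSeries.X_mul_cancel hab, ?_⟩
  refine (AddEquiv.isWeaklyRegular_congr (e := quotXEquiv R) ?_).mpr h
  refine List.forall₂_map_left_iff.mpr (List.forall₂_same.mpr fun r _ q => ?_)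
  induction q using Submodule.Quotient.induction_on with
  | _ f =>
    rw [← Submodule.Quotient.mk_smul, quotXEquiv_mk, quotXEquiv_mk]
    simp

/-- The list `X₀, …, X_{r-1}, C ϖ` in `𝒪⟦X₀, …, X_{r-1}⟧`. -/
noncomputable def xsList (𝒪 : Type*) [CommRing 𝒪] (ϖ : 𝒪) (r : ℕ) :
    List (MvPowerSeries (Fin r) 𝒪) :=
  List.ofFn (fun i : Fin r => (MvPowerSeries.X i : MvPowerSeries (Fin r) 𝒪)) ++
    [MvPowerSeries.C ϖ]

lemma xsList_length (𝒪 : Type*) [CommRing 𝒪] (ϖ : 𝒪) (r : ℕ) :
    (xsList 𝒪 ϖ r).length = r + 1 := by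
  simp [xsList]

lemma mem_xsList {𝒪 : Type*} [CommRing 𝒪] {ϖ : 𝒪} {r : ℕ} {f : MvPowerSeries (Fin r) 𝒪}
    (hf : f ∈ xsList 𝒪 ϖ r) : (∃ i : Fin r, f = MvPowerSeries.X i) ∨ f = MvPowerSeries.C ϖ := by
  simp only [xsList, List.mem_append, List.mem_ofFn, List.mem_singleton] at hf
  rcases hf with ⟨i, hi⟩ | hf
  · exact Or.inl ⟨i, hi.symm⟩
  · exact Or.inr hf

lemma xsList_succ_map (𝒪 : Type*) [CommRing 𝒪] (ϖ : 𝒪) (r : ℕ) :
    (xsList 𝒪 ϖ (r + 1)).map (MvPowerSeries.finSuccEquiv 𝒪 r) =
      PowerSeries.X :: (xsList 𝒪 ϖ r).map PowerSeries.C := by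
  simp only [xsList, List.ofFn_succ, List.map_append, List.map_cons, List.map_nil,
    List.cons_append, List.map_ofFn]
  congr 1
  · exact MvPowerSeries.finSuccEquiv_X_zero
  · congr 1
    · congr 1
      funext i
      simp [Function.comp]
    · simp

/-- `X₀, …, X_{r-1}, C ϖ` is a weakly regular sequence on `𝒪⟦X₀, …, X_{r-1}⟧`. -/
lemma isWeaklyRegular_xsList (𝒪 : Type*) [CommRing 𝒪] [IsDomain 𝒪] {ϖ : 𝒪} (hϖ : ϖ ≠ 0)
    (r : ℕ) : IsWeaklyRegular (MvPowerSeries (Fin r) 𝒪) (xsList 𝒪 ϖ r) := by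
  induction r with
  | zero =>
    have : xsList 𝒪 ϖ 0 = [MvPowerSeries.C ϖ] := by simp [xsList]
    rw [this, isWeaklyRegular_singleton_iff]
    apply IsSMulRegular.of_ne_zero
    intro h
    apply hϖ
    have := congrArg (MvPowerSeries.constantCoeff (σ := Fin 0) (R := 𝒪)) h
    simpa using this
  | succ r ih =>
    rw [isWeaklyRegular_map_ringEquiv (MvPowerSeries.finSuccEquiv 𝒪 r).toRingEquiv]
    have := xsList_succ_map 𝒪 ϖ r
    simp only [AlgEquiv.coe_ringEquiv] at *
    rw [this]
    exact isWeaklyRegular_powerSeries _ ih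

/-- The maximal ideal of `R⟦X⟧` is generated by `X` and the generators of the maximal ideal
of `R`. -/
lemma maximalIdeal_powerSeries_eq {R : Type*} [CommRing R] [IsLocalRing R] (l : List R)
    (hl : maximalIdeal R = Ideal.ofList l) :
    maximalIdeal (PowerSeries R) = Ideal.ofList (PowerSeries.X :: l.map PowerSeries.C) := by
  have hX : (PowerSeries.X : PowerSeries R) ∈ maximalIdeal (PowerSeries R) := by
    rw [IsLocalRing.mem_maximalIdeal, mem_nonunits_iff, PowerSeries.isUnit_iff_constantCoeff]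
    simp
  have hmap : Ideal.span {a | a ∈ l} =
      (maximalIdeal (PowerSeries R)).map (PowerSeries.constantCoeff (R := R)) := by
    rw [IsLocalRing.map_maximalIdeal_of_surjective _ PowerSeries.constantCoeff_surj, hl]
  rw [PowerSeries.eq_span_insert_X_of_X_mem_of_span_eq hX hmap]
  congr 1
  ext f
  simp only [Set.mem_insert_iff, Set.mem_image, Set.mem_ofPred_eq, List.mem_cons, List.mem_map]

/-- The maximal ideal of `𝒪⟦X₀, …, X_{r-1}⟧` is generated by `X₀, …, X_{r-1}, C ϖ`. -/
lemma maximalIdeal_mvPowerSeries_eq (𝒪 : Type*) [CommRing 𝒪] [IsLocalRing 𝒪] {ϖ : 𝒪}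
    (hϖ : maximalIdeal 𝒪 = Ideal.span {ϖ}) (r : ℕ) :
    maximalIdeal (MvPowerSeries (Fin r) 𝒪) = Ideal.ofList (xsList 𝒪 ϖ r) := by
  induction r with
  | zero =>
    have h1 : xsList 𝒪 ϖ 0 = [MvPowerSeries.C ϖ] := by simp [xsList]
    rw [h1, Ideal.ofList_singleton,
      ← IsLocalRing.map_ringEquiv_maximalIdeal
        (MvPowerSeries.isEmptyEquiv (Fin 0) 𝒪).symm.toRingEquiv, hϖ, Ideal.map_span]
    congr 1
    simp
  | succ r ih =>
    have h1 := maximalIdeal_powerSeries_eq _ ih
    set e' : MvPowerSeries (Fin (r + 1)) 𝒪 →+* PowerSeries (MvPowerSeries (Fin r) 𝒪) :=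
      (MvPowerSeries.finSuccEquiv 𝒪 r).toRingEquiv.toRingHom with he'
    have hbij : Function.Bijective e' := (MvPowerSeries.finSuccEquiv 𝒪 r).toRingEquiv.bijective
    have h2 : PowerSeries.X :: (xsList 𝒪 ϖ r).map PowerSeries.C =
        (xsList 𝒪 ϖ (r + 1)).map e' := (xsList_succ_map 𝒪 ϖ r).symm
    rw [h2, ← Ideal.map_ofList, ← IsLocalRing.map_maximalIdeal_of_surjective e' hbij.2] at h1
    have h3 := congrArg (Ideal.comap e') h1
    rwa [Ideal.comap_map_of_bijective e' hbij, Ideal.comap_map_of_bijective e' hbij] at h3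

end Fermat.Agent.H56
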