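import Fermat.Prelude.Def_Algebra_PatchingDatum
import Fermat.Agent.H56.FreeOfDepth
import Fermat.Agent.H56.PowerSeriesRegular
import Mathlib.RingTheory.DiscreteValuationRing.Basic
import Mathlib.LinearAlgebra.FreeModule.Basic

set_option autoImplicit false

namespace Fermat.Agent.H56

open IsLocalRing RingTheory.Sequence

section

variable {𝒪 : Type} [CommRing 𝒪] {r : ℕ} {R : Type} [CommRing R] [Algebra 𝒪 R]
    {M : Type} [AddCommGroup M] [Module R M]
    (L : Algebra.PatchingLevel 𝒪 r R M ⊥)

/-- The `φ`-semilinear coordinate map `S^d → N`. -/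
noncomputable def patchingHom : (Fin L.d → MvPowerSeries (Fin r) 𝒪) →+ L.N where
  toFun c := ∑ i, L.φ (c i) • L.b i
  map_zero' := by simp
  map_add' c c' := by simp [add_smul, Finset.sum_add_distrib]

lemma patchingHom_apply (c : Fin L.d → MvPowerSeries (Fin r) 𝒪) :
    patchingHom L c = ∑ i, L.φ (c i) • L.b i := rfl

lemma patchingHom_bijective : Function.Bijective (patchingHom L) := by
  constructor
  · rw [injective_iff_map_eq_zero]
    intro c hc
    have := (L.b_rel c).mp hc
    funext i
    simpa using this i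
  · intro x
    obtain ⟨c, hc⟩ := L.b_span x
    exact ⟨c, hc.symm⟩

/-- The `φ`-semilinear coordinate isomorphism `S^d ≃ N`. -/
noncomputable def patchingEquiv : (Fin L.d → MvPowerSeries (Fin r) 𝒪) ≃+ L.N :=
  AddEquiv.ofBijective (patchingHom L) (patchingHom_bijective L)

lemma patchingEquiv_smul (f : MvPowerSeries (Fin r) 𝒪)
    (c : Fin L.d → MvPowerSeries (Fin r) 𝒪) :
    patchingEquiv L (f • c) = L.φ f • patchingEquiv L c := by
  show patchingHom L (f • c) = L.φ f • patchingHom L c
  simp only [patchingHom_apply, Pi.smul_apply, smul_eq_mul, map_mul, Finset.smul_sum, mul_smul]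

lemma patching_finite : Module.Finite (MvPowerSeries (Fin r) 𝒪) L.N := by
  refine Module.Finite.of_surjective (Fintype.linearCombination (MvPowerSeries (Fin r) 𝒪) L.b) ?_
  intro x
  obtain ⟨c, hc⟩ := L.b_span x
  refine ⟨fun i => L.φ (c i), ?_⟩
  rw [hc, Fintype.linearCombination_apply]

lemma patching_nontrivial [Nontrivial M] : Nontrivial L.N := by
  obtain ⟨m, hm⟩ := exists_ne (0 : M)
  obtain ⟨x, hx⟩ := L.π_surjective m
  refine ⟨⟨x, 0, ?_⟩⟩
  rintro rfl
  exact hm (by rw [← hx, map_zero])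

lemma psi_ker_ne_top [Nontrivial M] : RingHom.ker L.ψ ≠ ⊤ := by
  have : Nontrivial R := Module.nontrivial R M
  exact RingHom.ker_ne_top _

end

section

variable {𝒪 : Type} [CommRing 𝒪] [IsDomain 𝒪] [IsDiscreteValuationRing 𝒪]
    {r : ℕ} {R : Type} [CommRing R] [Algebra 𝒪 R]
    {M : Type} [AddCommGroup M] [Module R M] [Nontrivial M]
    (L : Algebra.PatchingLevel 𝒪 r R M ⊥)

lemma patching_phi_mem_maximalIdeal {ϖ : 𝒪} (hϖ : Irreducible ϖ)
    (f : MvPowerSeries (Fin r) 𝒪) (hf : f ∈ xsList 𝒪 ϖ r) :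
    L.φ f ∈ maximalIdeal (MvPowerSeries (Fin r) 𝒪) := by
  rcases mem_xsList hf with ⟨i, rfl⟩ | rfl
  · apply IsLocalRing.le_maximalIdeal (psi_ker_ne_top L)
    rw [RingHom.mem_ker]
    exact L.ψ_φ_X i
  · have : L.φ (MvPowerSeries.C ϖ) = MvPowerSeries.C ϖ := by
      have := L.φ.commutes ϖ
      simpa [MvPowerSeries.algebraMap_apply] using this
    rw [this, IsLocalRing.mem_maximalIdeal, mem_nonunits_iff,
      MvPowerSeries.isUnit_iff_constantCoeff]
    simpa using hϖ.not_isUnit

theorem patching_free : Module.Free (MvPowerSeries (Fin r) 𝒪) L.N := by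
  classical
  obtain ⟨ϖ, hϖ⟩ := IsDiscreteValuationRing.exists_irreducible 𝒪
  have hfin : Module.Finite (MvPowerSeries (Fin r) 𝒪) L.N := patching_finite L
  have hnt : Nontrivial L.N := patching_nontrivial L
  have hmem : ∀ f ∈ (xsList 𝒪 ϖ r).map L.φ, f ∈ maximalIdeal (MvPowerSeries (Fin r) 𝒪) := by
    intro f hf
    obtain ⟨g, hg, rfl⟩ := List.mem_map.mp hf
    exact patching_phi_mem_maximalIdeal L hϖ g hg
  -- weak regularity on `S`, then on `S^d`, then on `N`
  have hw0 : IsWeaklyRegular (MvPowerSeries (Fin r) 𝒪) (xsList 𝒪 ϖ r) :=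
    isWeaklyRegular_xsList 𝒪 hϖ.ne_zero r
  have hw1 : IsWeaklyRegular (Fin L.d → MvPowerSeries (Fin r) 𝒪) (xsList 𝒪 ϖ r) := by
    have := hw0.isWeaklyRegular_lTensor (M₂ := Fin L.d → MvPowerSeries (Fin r) 𝒪)
    exact (LinearEquiv.isWeaklyRegular_congr (TensorProduct.rid _ _) _).mp this
  have hw2 : IsWeaklyRegular L.N ((xsList 𝒪 ϖ r).map L.φ) := by
    refine (AddEquiv.isWeaklyRegular_congr (e := patchingEquiv L) ?_).mp hw1
    exact List.forall₂_map_right_iff.mpr
      (List.forall₂_same.mpr fun f _ c => patchingEquiv_smul L f c)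
  have hreg : IsRegular L.N ((xsList 𝒪 ϖ r).map L.φ) :=
    IsRegular.of_isWeaklyRegular_of_mem_maximalIdeal L.N hmem hw2
  have hgen : maximalIdeal (MvPowerSeries (Fin r) 𝒪) =
      Ideal.span (((xsList 𝒪 ϖ r).toFinset : Finset _) : Set (MvPowerSeries (Fin r) 𝒪)) := by
    rw [maximalIdeal_mvPowerSeries_eq 𝒪 hϖ.maximalIdeal_eq r, List.coe_toFinset]
  exact free_of_isRegular_of_span_eq (r + 1) (MvPowerSeries (Fin r) 𝒪) L.N
    (xsList 𝒪 ϖ r).toFinset
    (le_trans (List.toFinset_card_le _) (by rw [xsList_length]))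
    hgen _ (by rw [List.length_map, xsList_length]) hmem hreg

end

/-- Coordinates of elements of `I • ⊤` with respect to a basis lie in `I`. -/
lemma coord_mem_of_mem_smul_top {S N ι : Type*} [CommRing S] [AddCommGroup N] [Module S N]
    (e : Module.Basis ι S N) (I : Ideal S) {x : N} (hx : x ∈ I • (⊤ : Submodule S N)) (i : ι) :
    e.coord i x ∈ I := by
  induction hx using Submodule.smul_induction_on' with
  | smul a ha n _ =>
    rw [map_smul, smul_eq_mul]
    exact Ideal.mul_mem_right _ _ ha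
  | add x _ y _ hx hy =>
    rw [map_add]
    exact Ideal.add_mem _ hx hy

section

variable {𝒪 : Type} [CommRing 𝒪] [IsDomain 𝒪] [IsDiscreteValuationRing 𝒪]
    {r : ℕ} {R : Type} [CommRing R] [Algebra 𝒪 R]
    {M : Type} [AddCommGroup M] [Module R M] [Nontrivial M]
    (L : Algebra.PatchingLevel 𝒪 r R M ⊥)

theorem patching_ker_eq :
    RingHom.ker L.ψ = Ideal.span (Set.range fun i : Fin r => L.φ (MvPowerSeries.X i)) := by
  have hfree : Module.Free (MvPowerSeries (Fin r) 𝒪) L.N := patching_free L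
  have hnt : Nontrivial L.N := patching_nontrivial L
  let e := Module.Free.chooseBasis (MvPowerSeries (Fin r) 𝒪) L.N
  apply le_antisymm
  · intro f hf
    obtain ⟨i₀⟩ : Nonempty (Module.Free.ChooseBasisIndex (MvPowerSeries (Fin r) 𝒪) L.N) :=
      e.index_nonempty
    have h1 : L.π (f • e i₀) = 0 := by
      rw [L.π_smul, RingHom.mem_ker.mp hf, zero_smul]
    have h2 := (L.ker_π _).mp h1
    have h3 := coord_mem_of_mem_smul_top e _ h2 i₀
    simpa using h3
  · rw [Ideal.span_le]
    rintro _ ⟨i, rfl⟩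
    exact L.ψ_φ_X i

include L in
theorem patching_free_target : Module.Free R M := by
  classical
  have hfree : Module.Free (MvPowerSeries (Fin r) 𝒪) L.N := patching_free L
  have hfin : Module.Finite (MvPowerSeries (Fin r) 𝒪) L.N := patching_finite L
  let e := Module.Free.chooseBasis (MvPowerSeries (Fin r) 𝒪) L.N
  let v : Module.Free.ChooseBasisIndex (MvPowerSeries (Fin r) 𝒪) L.N → M := fun i => L.π (e i)
  have hli : LinearIndependent R v := by
    rw [Fintype.linearIndependent_iff]
    intro g hg i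
    choose f hf using fun j => L.ψ_surjective (g j)
    have h1 : L.π (∑ j, f j • e j) = 0 := by
      rw [map_sum]
      simp only [L.π_smul, hf]
      exact hg
    have h2 := (L.ker_π _).mp h1
    have h3 := coord_mem_of_mem_smul_top e _ h2 i
    have h4 : e.coord i (∑ j, f j • e j) = f i := by
      simp [Module.Basis.coord_apply, Finsupp.single_apply]
    rw [h4, ← patching_ker_eq L] at h3
    rw [← hf i]
    exact RingHom.mem_ker.mp h3
  have hsp : ⊤ ≤ Submodule.span R (Set.range v) := by
    intro m _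
    obtain ⟨x, rfl⟩ := L.π_surjective m
    rw [← e.sum_repr x, map_sum]
    refine Submodule.sum_mem _ fun i _ => ?_
    rw [L.π_smul]
    exact Submodule.smul_mem _ _ (Submodule.subset_span ⟨i, rfl⟩)
  exact Module.Free.of_basis (Module.Basis.mk hli hsp)

theorem patching_result :
    Module.Free R M ∧ Module.annihilator R M = ⊥ ∧
      RingHom.ker L.ψ = Ideal.span (Set.range fun i : Fin r => L.φ (MvPowerSeries.X i)) := by
  have hfree : Module.Free R M := patching_free_target L
  exact ⟨hfree, Module.annihilator_eq_bot.mpr inferInstance, patching_ker_eq L⟩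

end

end Fermat.Agent.H56
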